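import Fermat.Agent.JungVanDerKulk.Polygon
import Mathlib.Algebra.Group.Subgroup.Lattice
import Mathlib.Algebra.MvPolynomial.Degrees

/-!
# The theorem of Jung and van der Kulk

Every automorphism of `k[X, Y]`, in characteristic zero, is tame: a leading edge of the Newton
polygon of the image of `X` is a power of a binomial, which an elementary automorphism removes.
-/

set_option autoImplicit false

noncomputable section

open MvPolynomial

namespace Fermat.Agent.JungVanDerKulk

variable (k : Type*) [Field k]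

/-- Affine automorphisms. -/
def IsAffineAut (φ : MvPolynomial (Fin 2) k ≃ₐ[k] MvPolynomial (Fin 2) k) : Prop :=
  ∀ i, (φ (X i)).totalDegree ≤ 1

/-- Elementary automorphisms `X ↦ X`, `Y ↦ Y + cXⁿ`. -/
def IsElementaryAut (φ : MvPolynomial (Fin 2) k ≃ₐ[k] MvPolynomial (Fin 2) k) : Prop :=
  ∃ (c : k) (n : ℕ), φ (X 0) = X 0 ∧ φ (X 1) = X 1 + C c * X 0 ^ n

/-- The subgroup of tame automorphisms. -/
def tame : Subgroup (MvPolynomial (Fin 2) k ≃ₐ[k] MvPolynomial (Fin 2) k) :=
  Subgroup.closure {φ | IsAffineAut k φ ∨ IsElementaryAut k φ}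

variable {k}

theorem algEquiv_ext_X {φ ψ : MvPolynomial (Fin 2) k ≃ₐ[k] MvPolynomial (Fin 2) k}
    (h0 : φ (X 0) = ψ (X 0)) (h1 : φ (X 1) = ψ (X 1)) : φ = ψ := by
  refine AlgEquiv.ext fun p => ?_
  have h : (φ : MvPolynomial (Fin 2) k →ₐ[k] MvPolynomial (Fin 2) k) = ψ :=
    algHom_ext fun i => by
      fin_cases i
      · exact h0
      · exact h1
  exact DFunLike.congr_fun h p

theorem aeval_X_zero_comm (ψ : MvPolynomial (Fin 2) k →ₐ[k] MvPolynomial (Fin 2) k)
    (h : ψ (X 0) = X 0) (P : Polynomial k) :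
    ψ (Polynomial.aeval (X 0) P) = Polynomial.aeval (X 0) P := by
  rw [← Polynomial.aeval_algHom_apply, h]

@[simp] theorem algEquiv_C (φ : MvPolynomial (Fin 2) k ≃ₐ[k] MvPolynomial (Fin 2) k) (a : k) :
    φ (C a) = C a := φ.commutes a

/-- The automorphism `X ↦ X`, `Y ↦ Y + P(X)`. -/
def shear (P : Polynomial k) : MvPolynomial (Fin 2) k ≃ₐ[k] MvPolynomial (Fin 2) k :=
  AlgEquiv.ofAlgHom (aeval ![X 0, X 1 + Polynomial.aeval (X 0) P])
    (aeval ![X 0, X 1 - Polynomial.aeval (X 0) P])
    (algHom_ext fun i => by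
      fin_cases i <;> simp [aeval_X_zero_comm])
    (algHom_ext fun i => by
      fin_cases i <;> simp [aeval_X_zero_comm])

@[simp] theorem shear_X_zero (P : Polynomial k) : shear P (X 0) = X 0 := by simp [shear]

@[simp] theorem shear_X_one (P : Polynomial k) :
    shear P (X 1) = X 1 + Polynomial.aeval (X 0) P := by simp [shear]

theorem shear_add (P Q : Polynomial k) : shear (P + Q) = shear P * shear Q := by
  refine algEquiv_ext_X (by simp) ?_
  simp only [AlgEquiv.mul_apply, shear_X_one, map_add]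
  rw [show shear P (Polynomial.aeval (X 0) Q) = Polynomial.aeval (X 0) Q from
    aeval_X_zero_comm (shear P).toAlgHom (shear_X_zero P) Q]
  ring

theorem shear_mem_tame (P : Polynomial k) : shear P ∈ tame k := by
  induction P using Polynomial.induction_on' with
  | add p q hp hq =>
    rw [shear_add]
    exact mul_mem hp hq
  | monomial n c =>
    refine Subgroup.subset_closure (Or.inr ⟨c, n, shear_X_zero _, ?_⟩)
    rw [shear_X_one, Polynomial.aeval_monomial, MvPolynomial.algebraMap_eq]

theorem swapVar_mem_tame : swapVar k ∈ tame k := by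
  refine Subgroup.subset_closure (Or.inl fun i => ?_)
  fin_cases i <;> simp

/-- The affine automorphism `X ↦ αX + β`, `Y ↦ γY`. -/
def axisAffine (α β γ : k) (hα : α ≠ 0) (hγ : γ ≠ 0) :
    MvPolynomial (Fin 2) k ≃ₐ[k] MvPolynomial (Fin 2) k :=
  AlgEquiv.ofAlgHom (aeval ![C α * X 0 + C β, C γ * X 1])
    (aeval ![C α⁻¹ * (X 0 - C β), C γ⁻¹ * X 1])
    (algHom_ext fun i => by
      fin_cases i <;> simp <;> simp [← mul_assoc, ← map_mul, hα, hγ])
    (algHom_ext fun i => by
      fin_cases i <;> simp <;> simp [← mul_assoc, ← map_mul, hα, hγ])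

theorem axisAffine_mem_tame (α β γ : k) (hα : α ≠ 0) (hγ : γ ≠ 0) :
    axisAffine α β γ hα hγ ∈ tame k := by
  refine Subgroup.subset_closure (Or.inl fun i => ?_)
  fin_cases i
  · simp only [Fin.zero_eta, axisAffine, AlgEquiv.ofAlgHom_apply, aeval_X, Matrix.cons_val_zero]
    refine (totalDegree_add _ _).trans (max_le ((totalDegree_mul _ _).trans ?_) (by simp))
    simp
  · simp only [Fin.mk_one, axisAffine, AlgEquiv.ofAlgHom_apply, aeval_X, Matrix.cons_val_one]
    exact (totalDegree_mul _ _).trans (by simp)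

/-- The chain rule for the Jacobian. -/
theorem pderiv_aut (φ : MvPolynomial (Fin 2) k →ₐ[k] MvPolynomial (Fin 2) k) (i : Fin 2)
    (p : MvPolynomial (Fin 2) k) :
    pderiv i (φ p) = φ (pderiv 0 p) * pderiv i (φ (X 0)) + φ (pderiv 1 p) * pderiv i (φ (X 1)) := by
  induction p using MvPolynomial.induction_on with
  | C a => simp [← algebraMap_eq]
  | add p q hp hq => simp only [map_add, hp, hq]; ring
  | mul_X p j hp =>
    simp only [map_mul, pderiv_mul, map_add, hp]
    fin_cases j <;> simp [pderiv_X] <;> ring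

variable (φ : MvPolynomial (Fin 2) k ≃ₐ[k] MvPolynomial (Fin 2) k)

theorem jac_aut (p : MvPolynomial (Fin 2) k) :
    jac (φ (X 0)) (φ p) = jac (φ (X 0)) (φ (X 1)) * φ (pderiv 1 p) := by
  simp only [jac_apply, ← AlgEquiv.coe_toAlgHom φ]
  rw [pderiv_aut _ 0 p, pderiv_aut _ 1 p]
  ring

/-- The Jacobian of an automorphism is a nonzero constant. -/
theorem exists_jac_eq_C : ∃ c : k, c ≠ 0 ∧ jac (φ (X 0)) (φ (X 1)) = C c := by
  have h : IsUnit (jac (φ (X 0)) (φ (X 1))) := by
    set p := φ.symm (X 0)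
    set q := φ.symm (X 1)
    refine IsUnit.of_mul_eq_one (φ (jac p q)) ?_
    calc jac (φ (X 0)) (φ (X 1)) * φ (jac p q) = jac (φ p) (φ q) := by
          simp only [jac_apply, ← AlgEquiv.coe_toAlgHom φ, map_sub, map_mul]
          rw [pderiv_aut _ 0 p, pderiv_aut _ 1 p, pderiv_aut _ 0 q, pderiv_aut _ 1 q]
          ring
      _ = 1 := by simp [p, q, jac_apply, pderiv_X]
  obtain ⟨c, hc, hJ⟩ := isUnit_iff_eq_C_of_isReduced.1 h
  exact ⟨c, hc.ne_zero, hJ⟩

/-- The coordinate derivation is locally nilpotent. -/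
theorem locallyNilpotent_jac_aut : LocallyNilpotent (jac (φ (X 0))) := by
  obtain ⟨c, -, hc⟩ := exists_jac_eq_C φ
  intro h
  obtain ⟨p, rfl⟩ := φ.surjective h
  have key : ∀ n, (jac (φ (X 0)))^[n] (φ p) = C c ^ n * φ ((pderiv 1)^[n] p) := by
    intro n
    induction n with
    | zero => simp
    | succ n ih =>
      rw [Function.iterate_succ_apply', ih, Derivation.leibniz, jac_aut, hc,
        ← map_pow, ← algebraMap_eq, Derivation.map_algebraMap, Function.iterate_succ_apply']
      simp only [smul_eq_mul, mul_zero, add_zero, map_pow]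
      ring
  have hp : LocallyNilpotent
      (pderiv 1 : Derivation k (MvPolynomial (Fin 2) k) (MvPolynomial (Fin 2) k)) := by
    refine locallyNilpotent_of_X _ fun i => ⟨2, ?_⟩
    fin_cases i <;> simp [pderiv_X]
  obtain ⟨n, hn⟩ := hp p
  exact ⟨n, by rw [key, hn, map_zero, mul_zero]⟩

theorem eq_aeval_pureX {f : MvPolynomial (Fin 2) k} (h : ∀ d ∈ f.support, d 1 = 0) :
    f = Polynomial.aeval (X 0) (pureX f) := by
  rw [f.as_sum]
  simp only [pureX, map_sum]
  refine Finset.sum_congr rfl fun d hd => ?_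
  rw [← expo_eta d, h d hd, monomial_expo]
  simp

theorem pureX_aeval (P : Polynomial k) :
    pureX (Polynomial.aeval (X 0 : MvPolynomial (Fin 2) k) P) = P := by
  rw [pureX, ← Polynomial.aeval_algHom_apply]
  simp

theorem pderiv_aeval_X_zero (P : Polynomial k) (i : Fin 2) :
    pderiv i (Polynomial.aeval (X 0 : MvPolynomial (Fin 2) k) P) =
      Polynomial.aeval (X 0) P.derivative * pderiv i (X 0) := by
  rw [Derivation.map_aeval, smul_eq_mul]

variable [CharZero k]

/-- An automorphism fixing the line of polynomials in `X` is tame. -/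
theorem mem_tame_of_snd_eq_zero (h : ∀ d ∈ (φ (X 0)).support, d 1 = 0) : φ ∈ tame k := by
  obtain ⟨c, hc0, hc⟩ := exists_jac_eq_C φ
  set P := pureX (φ (X 0))
  have hP : φ (X 0) = Polynomial.aeval (X 0) P := eq_aeval_pureX h
  rw [jac_apply, hP, pderiv_aeval_X_zero, pderiv_aeval_X_zero, pderiv_X_self,
    pderiv_X_of_ne (by decide), mul_one, mul_zero, zero_mul, sub_zero] at hc
  have hu : IsUnit (Polynomial.aeval (X 0) P.derivative * pderiv 1 (φ (X 1))) := by
    rw [hc]
    exact (Ne.isUnit hc0).map C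
  obtain ⟨α, hα, hPα⟩ := isUnit_iff_eq_C_of_isReduced.1 (isUnit_of_mul_isUnit_left hu)
  obtain ⟨γ, hγ, hgγ⟩ := isUnit_iff_eq_C_of_isReduced.1 (isUnit_of_mul_isUnit_right hu)
  have hP1 : P.derivative = Polynomial.C α := by
    rw [← pureX_aeval P.derivative, hPα]
    simp [pureX]
  have hPlin : P = Polynomial.C α * Polynomial.X + Polynomial.C (P.coeff 0) := by
    ext n
    rcases n with _ | _ | n
    · simp
    · have := congrArg (Polynomial.coeff · 0) hP1
      simp [Polynomial.coeff_derivative] at this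
      simp [this]
    · have := congrArg (Polynomial.coeff · (n + 1)) hP1
      simp [Polynomial.coeff_derivative] at this
      rcases this with h1 | h1
      · simp [h1]
      · exact absurd h1 (by exact_mod_cast (by omega : n + 1 + 1 ≠ 0))
  have hR : ∀ d ∈ (φ (X 1) - C γ * X 1).support, d 1 = 0 := by
    intro d hd
    by_contra hne
    refine pderiv_ne_zero_of_mem (mem_support_iff.1 hd) hne ?_
    rw [map_sub, pderiv_C_mul, pderiv_X_self, hgγ, mul_one, sub_self]
  set R := pureX (φ (X 1) - C γ * X 1)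
  have hR' : φ (X 1) = C γ * X 1 + Polynomial.aeval (X 0) R := by
    rw [← eq_aeval_pureX hR]
    ring
  have e : φ = shear (Polynomial.C γ⁻¹ * R) *
      axisAffine α (P.coeff 0) γ hα.ne_zero hγ.ne_zero := by
    refine algEquiv_ext_X ?_ ?_
    · rw [hP, AlgEquiv.mul_apply]
      conv_lhs => rw [hPlin]
      simp [axisAffine]
    · rw [hR', AlgEquiv.mul_apply]
      simp [axisAffine, mul_add]
      simp [← mul_assoc, ← map_mul, hγ.ne_zero]
  rw [e]
  exact mul_mem (shear_mem_tame _) (axisAffine_mem_tame _ _ _ _ _)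

/-- One elementary automorphism lowers the degree on the second axis. -/
theorem exists_reduction {f : MvPolynomial (Fin 2) k} (hf : LocallyNilpotent (jac f))
    (ha : 0 < (pureX f).natDegree) (hb : 0 < (pureY f).natDegree)
    (hdvd : (pureX f).natDegree ∣ (pureY f).natDegree) :
    ∃ τ ∈ tame k, (pureX (τ f)).natDegree = (pureX f).natDegree ∧
      (pureY (τ f)).natDegree < (pureY f).natDegree := by
  obtain ⟨q, hq⟩ := hdvd
  set g := (pureX f).natDegree with hg
  have hq0 : 0 < q := Nat.pos_of_mul_pos_left (hq ▸ hb)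
  obtain ⟨e, he⟩ := exists_edge_root hf ha hq0 hg.symm hq
  set τ := swapVar k * shear (Polynomial.C e * Polynomial.X ^ q) * swapVar k
  have hτ0 : τ (X 0) = X 0 + C e * X 1 ^ q := by simp [τ, AlgEquiv.mul_apply]
  have hτ1 : τ (X 1) = X 1 := by simp [τ, AlgEquiv.mul_apply]
  refine ⟨τ, mul_mem (mul_mem swapVar_mem_tame (shear_mem_tame _)) swapVar_mem_tame, ?_, ?_⟩
  · rw [hg]
    congr 1
    rw [pureX, pureX, ← AlgEquiv.coe_toAlgHom τ, ← AlgHom.comp_apply]
    congr 1
    refine algHom_ext fun i => ?_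
    fin_cases i <;> simp [hτ0, hτ1, hq0.ne']
  · have h1 : pureY (τ f) = aeval ![Polynomial.C e * Polynomial.X ^ q, Polynomial.X] f := by
      rw [pureY, ← AlgEquiv.coe_toAlgHom τ, ← AlgHom.comp_apply]
      congr 1
      refine algHom_ext fun i => ?_
      fin_cases i <;> simp [hτ0, hτ1]
    have hval : ∀ N, (pureY (τ f)).coeff N =
        ∑ d ∈ f.support, if q * d 0 + d 1 = N then f.coeff d * e ^ d 0 else 0 := by
      intro N
      rw [h1]
      conv_lhs => rw [f.as_sum, map_sum, Polynomial.finsetSum_coeff]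
      refine Finset.sum_congr rfl fun d _ => ?_
      conv_lhs => rw [← expo_eta d, monomial_expo]
      simp only [map_mul, map_pow, aeval_C, aeval_X, Matrix.cons_val_zero, Matrix.cons_val_one,
        Polynomial.algebraMap_eq, expo_eta, mul_pow, ← pow_mul]
      rw [show Polynomial.C (f.coeff d) * (Polynomial.C e ^ d 0 * Polynomial.X ^ (q * d 0)) *
          Polynomial.X ^ d 1 = Polynomial.C (f.coeff d * e ^ d 0) *
            Polynomial.X ^ (q * d 0 + d 1) by rw [map_mul, map_pow, pow_add]; ring,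
        Polynomial.coeff_C_mul_X_pow]
      simp only [eq_comm (a := N)]
    have hwt : ∀ d ∈ f.support, q * d 0 + d 1 ≤ g * q := by
      intro d hd
      have := weight_le hf hd
      simp only [wt, Matrix.cons_val_zero, Matrix.cons_val_one, ← hg, hq] at this
      exact Nat.le_of_mul_le_mul_left
        (show g * (q * d 0 + d 1) ≤ g * (g * q) by linarith) ha
    have htop : (pureY (τ f)).coeff (g * q) = 0 := by
      have hev : eval ![e, 1] (top ![g * q, g * 1] f (g * 1 * (g * q))) = 0 := by
        rw [top_eq_sum one_pos hq0 ha (Nat.coprime_one_left q), map_sum, ← he,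
          Polynomial.eval_eq_sum_range' (n := g + 1) (Nat.lt_succ_of_le
            (Polynomial.natDegree_le_iff_coeff_eq_zero.2 fun s hs => by
              rw [coeff_edgePoly, if_neg (by omega)]))]
        simp
      rw [hval]
      refine Eq.trans ?_ hev
      have ht : top ![g * q, g * 1] f (g * 1 * (g * q)) =
          ∑ d ∈ f.support, if q * d 0 + d 1 = g * q then monomial d (f.coeff d) else 0 := by
        ext d
        rw [coeff_top, coeff_sum]
        simp only [apply_ite (coeff d), coeff_monomial, coeff_zero]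
        rw [Finset.sum_eq_single d (fun b _ hb' => by simp [hb'])
          (fun h => by simp [notMem_support_iff.1 h])]
        simp only [wt, Matrix.cons_val_zero, Matrix.cons_val_one, if_true]
        refine if_congr ⟨fun h => ?_, fun h => ?_⟩ rfl rfl
        · exact Nat.eq_of_mul_eq_mul_left ha (by linarith)
        · rw [mul_one, show g * (g * q) = g * (q * d 0 + d 1) by rw [h]]
          ring
      rw [ht, map_sum]
      refine Finset.sum_congr rfl fun d _ => ?_
      split_ifs
      · simp [eval_monomial, Finsupp.prod_fintype]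
      · simp
    rw [hq]
    refine lt_of_le_of_lt (Polynomial.natDegree_le_iff_coeff_eq_zero.2 fun N hN => ?_)
      (Nat.sub_one_lt (Nat.mul_pos ha hq0).ne')
    rcases eq_or_ne N (g * q) with rfl | hne
    · exact htop
    · rw [hval]
      exact Finset.sum_eq_zero fun d hd => if_neg fun h => by
        have := hwt d hd
        omega

/-- **Jung–van der Kulk**. -/
theorem tame_eq_top : tame k = ⊤ := by
  suffices H : ∀ (n : ℕ) (φ : MvPolynomial (Fin 2) k ≃ₐ[k] MvPolynomial (Fin 2) k),
      (pureX (φ (X 0))).natDegree + (pureY (φ (X 0))).natDegree ≤ n → φ ∈ tame k from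
    eq_top_iff.2 fun φ _ => H _ φ le_rfl
  intro n
  induction n using Nat.strong_induction_on with
  | _ n ih =>
    intro φ hn
    have hzero : ∀ ψ : MvPolynomial (Fin 2) k ≃ₐ[k] MvPolynomial (Fin 2) k,
        (pureY (ψ (X 0))).natDegree = 0 → ψ ∈ tame k := fun ψ h =>
      mem_tame_of_snd_eq_zero ψ (snd_eq_zero_of_pureY (locallyNilpotent_jac_aut ψ) h)
    have hswap : ∀ ψ : MvPolynomial (Fin 2) k ≃ₐ[k] MvPolynomial (Fin 2) k,
        swapVar k * ψ ∈ tame k → ψ ∈ tame k := fun ψ h =>
      (Subgroup.mul_mem_cancel_left _ swapVar_mem_tame).1 h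
    have hred : ∀ ψ : MvPolynomial (Fin 2) k ≃ₐ[k] MvPolynomial (Fin 2) k,
        (pureX (ψ (X 0))).natDegree + (pureY (ψ (X 0))).natDegree ≤ n →
        0 < (pureX (ψ (X 0))).natDegree → 0 < (pureY (ψ (X 0))).natDegree →
        (pureX (ψ (X 0))).natDegree ∣ (pureY (ψ (X 0))).natDegree → ψ ∈ tame k := by
      intro ψ hψ ha hb hd
      obtain ⟨τ, hτ, h1, h2⟩ := exists_reduction (locallyNilpotent_jac_aut ψ) ha hb hd
      refine (Subgroup.mul_mem_cancel_left _ hτ).1 (ih _ ?_ (τ * ψ) le_rfl)
      rw [AlgEquiv.mul_apply]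
      omega
    set a := (pureX (φ (X 0))).natDegree with ha
    set b := (pureY (φ (X 0))).natDegree with hb
    rcases Nat.eq_zero_or_pos b with hb0 | hb0
    · exact hzero φ hb0
    rcases Nat.eq_zero_or_pos a with ha0 | ha0
    · refine hswap φ (hzero _ ?_)
      rw [AlgEquiv.mul_apply, pureY_swapVar]
      exact ha0
    obtain ⟨g, p, q, hg, hpq, hp', hq'⟩ :=
      Nat.exists_coprime' (Nat.gcd_pos_of_pos_left b ha0)
    rw [mul_comm] at hp' hq'
    have hp0 : 0 < p := Nat.pos_of_mul_pos_left (hp' ▸ ha0)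
    have hq0 : 0 < q := Nat.pos_of_mul_pos_left (hq' ▸ hb0)
    rcases eq_one_or_eq_one (locallyNilpotent_jac_aut φ) hg hp0 hq0 hpq (ha ▸ hp')
      (hb ▸ hq') with rfl | rfl
    · exact hred φ hn ha0 hb0 ⟨q, by rw [← ha, ← hb, hp', hq', mul_one]⟩
    · refine hswap φ (hred _ ?_ ?_ ?_ ?_) <;>
        simp only [AlgEquiv.mul_apply, pureX_swapVar, pureY_swapVar, ← ha, ← hb]
      · omega
      · exact hb0
      · exact ha0
      · exact ⟨p, by rw [hp', hq', mul_one]⟩

end Fermat.Agent.JungVanDerKulk
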