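import Mathlib.RingTheory.Derivation.Basic
import Mathlib.Algebra.CharZero.Defs
import Mathlib.Logic.Function.Iterate
import Mathlib.Data.Nat.Choose.Basic
import Mathlib.Algebra.Ring.Divisibility.Basic
import Mathlib.Tactic.Ring

/-!
# Locally nilpotent derivations of a domain of characteristic zero
-/

set_option autoImplicit false

namespace Fermat.Agent.JungVanDerKulk

variable {R A : Type*} [CommRing R] [CommRing A] [Algebra R A] (D : Derivation R A A)

/-- Every element is killed by a power of the derivation. -/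
def LocallyNilpotent : Prop := ∀ p : A, ∃ n : ℕ, D^[n] p = 0

theorem iterate_zero_right (n : ℕ) : D^[n] (0 : A) = 0 := by
  induction n with
  | zero => rfl
  | succ n ih => rw [Function.iterate_succ_apply, map_zero, ih]

theorem iterate_add_right (n : ℕ) (p q : A) : D^[n] (p + q) = D^[n] p + D^[n] q := by
  induction n generalizing p q with
  | zero => rfl
  | succ n ih => simp only [Function.iterate_succ_apply, map_add, ih]

theorem iterate_eq_zero_of_le {p : A} {n m : ℕ} (h : D^[n] p = 0) (hnm : n ≤ m) :
    D^[m] p = 0 := by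
  obtain ⟨i, rfl⟩ := Nat.exists_eq_add_of_le hnm
  rw [add_comm, Function.iterate_add_apply, h, iterate_zero_right]

/-- The leading term of the iterated Leibniz rule. -/
theorem iterate_mul : ∀ (N m n : ℕ) (p q : A), m + n = N → D^[m + 1] p = 0 → D^[n + 1] q = 0 →
    D^[N + 1] (p * q) = 0 ∧ D^[N] (p * q) = (N.choose m : A) * (D^[m] p * D^[n] q) := by
  intro N
  induction N with
  | zero =>
    intro m n p q h hp hq
    obtain rfl : m = 0 := by omega
    obtain rfl : n = 0 := by omega
    simp only [zero_add, Function.iterate_one] at hp hq ⊢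
    simp [Derivation.leibniz, hp, hq]
  | succ N ih =>
    intro m n p q h hp hq
    have e : D (p * q) = D p * q + p * D q := by
      rw [Derivation.leibniz]; simp only [smul_eq_mul]; ring
    rw [Function.iterate_succ_apply D (N + 1) (p * q), Function.iterate_succ_apply D N (p * q), e,
      iterate_add_right, iterate_add_right]
    rcases m with _ | m
    · simp only [zero_add, Function.iterate_one] at hp
      obtain rfl : n = N + 1 := by omega
      rw [hp, zero_mul, iterate_zero_right, iterate_zero_right, zero_add, zero_add]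
      obtain ⟨h1, h2⟩ := ih 0 N p (D q) (by omega) (by simpa using hp)
        (by rwa [← Function.iterate_succ_apply])
      refine ⟨h1, ?_⟩
      rw [h2, Nat.choose_zero_right, Nat.choose_zero_right, Function.iterate_succ_apply D N q]
    · obtain ⟨h1, h2⟩ := ih m n (D p) q (by omega)
        (by rwa [← Function.iterate_succ_apply]) hq
      rw [h1, h2]
      rcases n with _ | n
      · simp only [zero_add, Function.iterate_one] at hq
        obtain rfl : m = N := by omega
        rw [hq, mul_zero, iterate_zero_right, iterate_zero_right, add_zero, add_zero]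
        refine ⟨rfl, ?_⟩
        rw [Nat.choose_self, Nat.choose_self, Function.iterate_succ_apply D m p]
      · obtain ⟨h3, h4⟩ := ih (m + 1) n p (D q) (by omega) hp
          (by rwa [← Function.iterate_succ_apply])
        rw [h3, h4, add_zero]
        refine ⟨rfl, ?_⟩
        rw [Nat.choose_succ_succ, Nat.cast_add, Function.iterate_succ_apply D m p,
          Function.iterate_succ_apply D n q]
        ring

/-- Local nilpotence may be checked on generators. -/
theorem locallyNilpotent_mul {p q : A} (hp : ∃ n : ℕ, D^[n] p = 0) (hq : ∃ n : ℕ, D^[n] q = 0) :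
    ∃ n : ℕ, D^[n] (p * q) = 0 := by
  obtain ⟨m, hm⟩ := hp
  obtain ⟨n, hn⟩ := hq
  exact ⟨m + n + 1, (iterate_mul D (m + n) m n p q rfl (iterate_eq_zero_of_le D hm (by omega))
    (iterate_eq_zero_of_le D hn (by omega))).1⟩

variable {D} (hD : LocallyNilpotent D)
include hD

theorem exists_order {p : A} (hp : p ≠ 0) : ∃ m : ℕ, D^[m] p ≠ 0 ∧ D^[m + 1] p = 0 := by
  classical
  have h := hD p
  have h1 : Nat.find h ≠ 0 := fun e => hp (by simpa [e] using Nat.find_spec h)
  refine ⟨Nat.find h - 1, Nat.find_min h (by omega), ?_⟩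
  rw [Nat.sub_add_cancel (Nat.pos_of_ne_zero h1)]
  exact Nat.find_spec h

variable [IsDomain A] [CharZero A]

omit hD in
theorem iterate_mul_ne_zero {p q : A} {m n : ℕ} (hp : D^[m] p ≠ 0) (hp' : D^[m + 1] p = 0)
    (hq : D^[n] q ≠ 0) (hq' : D^[n + 1] q = 0) : D^[m + n] (p * q) ≠ 0 := by
  rw [(iterate_mul D (m + n) m n p q rfl hp' hq').2]
  exact mul_ne_zero (Nat.cast_ne_zero.2 (Nat.choose_pos (Nat.le_add_right m n)).ne')
    (mul_ne_zero hp hq)

/-- The kernel is factorially closed. -/
theorem eq_zero_of_dvd {p q : A} (hq : q ≠ 0) (hpq : p ∣ q) (h : D q = 0) : D p = 0 := by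
  obtain ⟨r, rfl⟩ := hpq
  obtain ⟨hp0, hr0⟩ := mul_ne_zero_iff.1 hq
  obtain ⟨m, hm, hm'⟩ := exists_order hD hp0
  obtain ⟨n, hn, hn'⟩ := exists_order hD hr0
  by_contra hne
  have hm0 : m ≠ 0 := fun e => hne (by simpa [e] using hm')
  exact iterate_mul_ne_zero hm hm' hn hn'
    (iterate_eq_zero_of_le D (n := 1) (by simpa using h) (by omega))

/-- Two elements cannot each divide the derivative of the other. -/
theorem not_dvd_derivative {x y : A} (hx : D x ≠ 0) (hy : D y ≠ 0) (hxy : x ∣ D y)
    (hyx : y ∣ D x) : False := by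
  have key : ∀ {u v : A}, D u ≠ 0 → D v ≠ 0 → u ∣ D v → ∀ {m n : ℕ}, D^[m] u ≠ 0 →
      D^[m + 1] u = 0 → D^[n + 1] v = 0 → m + 1 ≤ n := by
    intro u v hu hv huv m n hm hm' hn
    obtain ⟨r, hr⟩ := huv
    have hr0 : r ≠ 0 := fun e => hv (by rw [hr, e, mul_zero])
    obtain ⟨l, hl, hl'⟩ := exists_order hD hr0
    by_contra hlt
    apply iterate_mul_ne_zero hm hm' hl hl'
    rw [← hr, ← Function.iterate_succ_apply]
    exact iterate_eq_zero_of_le D hn (by omega)
  obtain ⟨m, hm, hm'⟩ := exists_order hD (p := x) (fun e => hx (by rw [e, map_zero]))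
  obtain ⟨n, hn, hn'⟩ := exists_order hD (p := y) (fun e => hy (by rw [e, map_zero]))
  have h1 := key hx hy hxy hm hm' hn'
  have h2 := key hy hx hyx hn hn' hm'
  omega

end Fermat.Agent.JungVanDerKulk
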