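import Fermat.Agent.JungVanDerKulk.TopForm
import Mathlib.RingTheory.MvPolynomial.Basic
import Mathlib.Algebra.MvPolynomial.Nilpotent
import Mathlib.Algebra.MvPolynomial.Division
import Mathlib.FieldTheory.IsAlgClosed.AlgebraicClosure
import Mathlib.Algebra.Polynomial.Splits

/-!
# The Newton polygon of a polynomial with locally nilpotent Jacobian derivation
-/

set_option autoImplicit false

noncomputable section

open MvPolynomial

namespace Fermat.Agent.JungVanDerKulk

/-- The exponent `(i, j)`. -/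
def expo (i j : ℕ) : Fin 2 →₀ ℕ := Finsupp.single 0 i + Finsupp.single 1 j

@[simp] theorem expo_zero_apply (i j : ℕ) : expo i j 0 = i := by simp [expo]

@[simp] theorem expo_one_apply (i j : ℕ) : expo i j 1 = j := by simp [expo]

theorem expo_eta (d : Fin 2 →₀ ℕ) : expo (d 0) (d 1) = d := by
  ext i; fin_cases i <;> simp [expo]

variable {k : Type*} [Field k]

theorem monomial_expo (i j : ℕ) (c : k) :
    monomial (expo i j) c = C c * X 0 ^ i * X 1 ^ j := by
  simp [expo, X_pow_eq_monomial, C_mul_monomial, monomial_mul]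

/-- The restriction to the first axis. -/
def pureX (f : MvPolynomial (Fin 2) k) : Polynomial k := aeval ![Polynomial.X, 0] f

/-- The restriction to the second axis. -/
def pureY (f : MvPolynomial (Fin 2) k) : Polynomial k := aeval ![0, Polynomial.X] f

theorem coeff_pureX (f : MvPolynomial (Fin 2) k) (n : ℕ) :
    (pureX f).coeff n = f.coeff (expo n 0) := by
  induction f using MvPolynomial.induction_on' with
  | monomial u a =>
    rw [← expo_eta u, pureX, monomial_expo]
    simp only [map_mul, map_pow, aeval_C, aeval_X, Matrix.cons_val_zero, Matrix.cons_val_one,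
      Polynomial.algebraMap_eq]
    rw [← monomial_expo, coeff_monomial]
    rcases Nat.eq_zero_or_pos (u 1) with h | h
    · rw [h, pow_zero, mul_one, Polynomial.coeff_C_mul_X_pow]
      by_cases hn : n = u 0
      · rw [if_pos hn, if_pos (by rw [hn])]
      · rw [if_neg hn, if_neg fun e => hn ?_]
        simpa using (congrArg (· 0) e).symm
    · rw [zero_pow h.ne', mul_zero, Polynomial.coeff_zero, if_neg]
      intro e
      have := congrArg (· 1) e
      simp at this
      omega
  | add p q hp hq =>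
    rw [pureX, map_add, Polynomial.coeff_add, coeff_add]
    exact congrArg₂ (· + ·) hp hq

/-- Exchange of the variables. -/
def swapVar (k : Type*) [Field k] : MvPolynomial (Fin 2) k ≃ₐ[k] MvPolynomial (Fin 2) k :=
  renameEquiv k (Equiv.swap 0 1)

@[simp] theorem swapVar_X_zero : swapVar k (X 0) = X 1 := by simp [swapVar]

@[simp] theorem swapVar_X_one : swapVar k (X 1) = X 0 := by simp [swapVar]

theorem pureX_swapVar (f : MvPolynomial (Fin 2) k) : pureX (swapVar k f) = pureY f := by
  rw [pureX, pureY, ← AlgEquiv.coe_toAlgHom, ← AlgHom.comp_apply]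
  congr 1
  refine algHom_ext fun i => ?_
  fin_cases i <;> simp

theorem pureY_swapVar (f : MvPolynomial (Fin 2) k) : pureY (swapVar k f) = pureX f := by
  rw [pureX, pureY, ← AlgEquiv.coe_toAlgHom, ← AlgHom.comp_apply]
  congr 1
  refine algHom_ext fun i => ?_
  fin_cases i <;> simp

theorem coeff_pureY (f : MvPolynomial (Fin 2) k) (n : ℕ) :
    (pureY f).coeff n = f.coeff (expo 0 n) := by
  rw [← pureX_swapVar, coeff_pureX, swapVar, renameEquiv_apply,
    show expo n 0 = (expo 0 n).mapDomain (Equiv.swap (0 : Fin 2) 1) by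
      simp [expo, Finsupp.mapDomain_single],
    coeff_rename_mapDomain _ (Equiv.injective _)]

variable [CharZero k]

theorem pderiv_ne_zero_of_mem {f : MvPolynomial (Fin 2) k} {d : Fin 2 →₀ ℕ} {i : Fin 2}
    (hd : f.coeff d ≠ 0) (hi : d i ≠ 0) : pderiv i f ≠ 0 := by
  intro h
  have hle : Finsupp.single i 1 ≤ d := Finsupp.single_le_iff.2 (Nat.one_le_iff_ne_zero.2 hi)
  have := coeff_pderiv f (d - Finsupp.single i 1) (i := i)
  rw [h, coeff_zero, tsub_add_cancel_of_le hle] at this
  rcases mul_eq_zero.1 this.symm with h1 | h1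
  · exact hd h1
  · exact Nat.cast_add_one_ne_zero _ h1

variable {f : MvPolynomial (Fin 2) k}

/-- A leading form is never divisible by `XY`. -/
theorem corner (hf : LocallyNilpotent (jac f)) (w : Fin 2 → ℕ) (M : ℕ)
    (hM : ∀ d ∈ f.support, wt w d ≤ M) (hmem : ∃ d ∈ f.support, wt w d = M) :
    ∃ d ∈ f.support, wt w d = M ∧ (d 0 = 0 ∨ d 1 = 0) := by
  obtain ⟨d, hd, hdM⟩ := hmem
  by_contra hno
  push Not at hno
  have hcd : (top w f M).coeff d ≠ 0 := by
    rwa [coeff_top, if_pos hdM, ← mem_support_iff]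
  have h1 : (X 1 : MvPolynomial (Fin 2) k) ∣ top w f M := by
    rw [(top w f M).as_sum]
    refine Finset.dvd_sum fun m hm => X_dvd_monomial.2 (Or.inr ?_)
    rw [mem_support_iff, coeff_top, ite_ne_right_iff] at hm
    exact (hno m (mem_support_iff.2 hm.2) hm.1).2
  have h0 := eq_zero_of_dvd (locallyNilpotent_top hf w M hM) (fun e => hcd (by rw [e, coeff_zero]))
    h1 (jac_self _)
  rw [jac_X_one] at h0
  exact pderiv_ne_zero_of_mem hcd (hno d hd hdM).1 h0

/-- If the second axis carries no term then the polynomial involves the first variable only. -/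
theorem snd_eq_zero_of_pureY (hf : LocallyNilpotent (jac f)) (hb : (pureY f).natDegree = 0) :
    ∀ d ∈ f.support, d 1 = 0 := by
  intro d hd
  by_contra hne
  set N := f.support.sup (fun e => e 0) + 1
  have hN : ∀ e ∈ f.support, e 0 < N := fun e he =>
    Nat.lt_succ_of_le (Finset.le_sup (f := fun e : Fin 2 →₀ ℕ => e 0) he)
  obtain ⟨m, hm, hmax⟩ := f.support.exists_max_image (wt ![1, N]) ⟨d, hd⟩
  obtain ⟨e, he, hwe, hor⟩ := corner hf ![1, N] _ hmax ⟨m, hm, rfl⟩
  have hd' := hmax d hd
  rw [← hwe] at hd'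
  simp only [wt, Matrix.cons_val_zero, Matrix.cons_val_one, mul_one] at hd'
  have hd1 : N ≤ d 1 * N := Nat.le_mul_of_pos_left N (Nat.pos_of_ne_zero hne)
  rcases hor with h | h
  · have he1 : e 1 = 0 := by
      by_contra hne1
      have h2 : f.coeff (expo 0 (e 1)) ≠ 0 := by
        rw [← h, expo_eta]
        exact mem_support_iff.1 he
      rw [← coeff_pureY] at h2
      have := Polynomial.le_natDegree_of_ne_zero h2
      omega
    rw [h, he1] at hd'
    have := hN d hd
    omega
  · rw [h] at hd'
    have := hN e he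
    omega

/-- The support lies below the segment joining the two pure terms. -/
theorem weight_le (hf : LocallyNilpotent (jac f)) {d : Fin 2 →₀ ℕ} (hd : d ∈ f.support) :
    wt ![(pureY f).natDegree, (pureX f).natDegree] d ≤
      (pureX f).natDegree * (pureY f).natDegree := by
  set a := (pureX f).natDegree
  set b := (pureY f).natDegree
  obtain ⟨m, hm, hmax⟩ := f.support.exists_max_image (wt ![b, a]) ⟨d, hd⟩
  obtain ⟨e, he, hwe, hor⟩ := corner hf ![b, a] _ hmax ⟨m, hm, rfl⟩
  refine (hmax d hd).trans (hwe ▸ ?_)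
  have hce := mem_support_iff.1 he
  rw [← expo_eta e] at hce
  simp only [wt, Matrix.cons_val_zero, Matrix.cons_val_one]
  rcases hor with h | h <;> rw [h] at hce ⊢
  · rw [← coeff_pureY] at hce
    have := Polynomial.le_natDegree_of_ne_zero hce
    nlinarith
  · rw [← coeff_pureX] at hce
    have := Polynomial.le_natDegree_of_ne_zero hce
    nlinarith

omit [CharZero k] in
theorem coeff_expo_natDegree (ha : 0 < (pureX f).natDegree) :
    f.coeff (expo (pureX f).natDegree 0) ≠ 0 := by
  rw [← coeff_pureX]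
  exact Polynomial.leadingCoeff_ne_zero.2 fun e => by simp [e] at ha

omit [CharZero k] in
theorem coeff_expo_natDegree' (hb : 0 < (pureY f).natDegree) :
    f.coeff (expo 0 (pureY f).natDegree) ≠ 0 := by
  rw [← coeff_pureY]
  exact Polynomial.leadingCoeff_ne_zero.2 fun e => by simp [e] at hb

/-- The polynomial in one variable read off from the leading segment. -/
def edgePoly (f : MvPolynomial (Fin 2) k) (g p q : ℕ) : Polynomial k :=
  ∑ s ∈ Finset.range (g + 1),
    Polynomial.C (f.coeff (expo (p * s) (q * (g - s)))) * Polynomial.X ^ s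

omit [CharZero k] in
theorem coeff_edgePoly (g p q s : ℕ) :
    (edgePoly f g p q).coeff s =
      if s ≤ g then f.coeff (expo (p * s) (q * (g - s))) else 0 := by
  simp [edgePoly, Polynomial.finsetSum_coeff]

omit [CharZero k] in
theorem top_eq_sum {g p q : ℕ} (hp : 0 < p) (hq : 0 < q) (hg : 0 < g) (hpq : p.Coprime q) :
    top ![g * q, g * p] f (g * p * (g * q)) =
      ∑ s ∈ Finset.range (g + 1),
        C ((edgePoly f g p q).coeff s) * (X 0 ^ p) ^ s * (X 1 ^ q) ^ (g - s) := by
  simp only [← pow_mul, ← monomial_expo]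
  ext d
  rw [coeff_top, coeff_sum]
  simp only [coeff_monomial]
  split_ifs with hd
  · simp only [wt, Matrix.cons_val_zero, Matrix.cons_val_one] at hd
    have h1 : d 0 * q + d 1 * p = g * p * q :=
      Nat.eq_of_mul_eq_mul_left hg (by linarith)
    have hdvd : p ∣ d 0 := hpq.dvd_of_dvd_mul_right
      ((Nat.dvd_add_left (Dvd.intro_left (d 1) rfl)).1
        (h1 ▸ dvd_mul_of_dvd_left (Dvd.intro_left g rfl) q))
    obtain ⟨s, hs⟩ := hdvd
    have hsg : s ≤ g := by
      rw [hs] at h1
      exact Nat.le_of_mul_le_mul_left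
        (show p * q * s ≤ p * q * g by linarith [Nat.zero_le (d 1 * p)]) (by positivity)
    obtain ⟨t, rfl⟩ := Nat.exists_eq_add_of_le hsg
    have hd1 : d 1 = q * t := by
      rw [hs] at h1
      exact Nat.eq_of_mul_eq_mul_right hp (by nlinarith)
    rw [Finset.sum_eq_single s]
    · rw [coeff_edgePoly, if_pos hsg, Nat.add_sub_cancel_left, ← hs, ← hd1, expo_eta, if_pos rfl]
    · intro r _ hr
      rw [if_neg]
      intro e
      refine hr (Nat.eq_of_mul_eq_mul_left hp ?_)
      simpa [hs] using congrArg (· 0) e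
    · intro h
      exact absurd (Finset.mem_range.2 (by omega)) h
  · refine (Finset.sum_eq_zero fun r hr => if_neg ?_).symm
    rintro rfl
    refine hd ?_
    obtain ⟨t, rfl⟩ := Nat.exists_eq_add_of_le (Nat.le_of_lt_succ (Finset.mem_range.1 hr))
    simp [wt]
    ring

theorem sub_dvd_edge {A : Type*} [CommRing A] (c : ℕ → A) (g : ℕ) (a b e : A)
    (h : ∑ s ∈ Finset.range (g + 1), c s * e ^ s = 0) :
    a - e * b ∣ ∑ s ∈ Finset.range (g + 1), c s * a ^ s * b ^ (g - s) := by
  have h0 : ∑ s ∈ Finset.range (g + 1), c s * (e * b) ^ s * b ^ (g - s) = 0 := by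
    rw [← zero_mul (b ^ g), ← h, Finset.sum_mul]
    refine Finset.sum_congr rfl fun s hs => ?_
    rw [← Nat.add_sub_cancel' (Nat.le_of_lt_succ (Finset.mem_range.1 hs)), pow_add,
      Nat.add_sub_cancel_left]
    ring
  rw [← sub_zero (Finset.sum _ _), ← h0, ← Finset.sum_sub_distrib]
  refine Finset.dvd_sum fun s _ => ?_
  rw [← sub_mul, ← mul_sub]
  exact dvd_mul_of_dvd_left (dvd_mul_of_dvd_right (sub_dvd_pow_sub_pow a (e * b) s) _) _

section Edge

variable {g p q : ℕ} (hf : LocallyNilpotent (jac f)) (hg : 0 < g) (hp : 0 < p) (hq : 0 < q)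
  (hpq : p.Coprime q) (hX : (pureX f).natDegree = g * p) (hY : (pureY f).natDegree = g * q)
include hf hg hp hq hpq hX hY

omit hpq in
theorem edgePoly_spec :
    (edgePoly f g p q).natDegree = g ∧ (edgePoly f g p q).coeff 0 ≠ 0 ∧
    LocallyNilpotent (jac (top ![g * q, g * p] f (g * p * (g * q)))) ∧
    pderiv 0 (top ![g * q, g * p] f (g * p * (g * q))) ≠ 0 := by
  have hc : f.coeff (expo (g * p) 0) ≠ 0 := by
    rw [← hX]; exact coeff_expo_natDegree (hX ▸ Nat.mul_pos hg hp)
  have hc' : f.coeff (expo 0 (g * q)) ≠ 0 := by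
    rw [← hY]; exact coeff_expo_natDegree' (hY ▸ Nat.mul_pos hg hq)
  refine ⟨Polynomial.natDegree_eq_of_le_of_coeff_ne_zero
    (Polynomial.natDegree_le_iff_coeff_eq_zero.2 fun s hs => by
      rw [coeff_edgePoly, if_neg (by omega)]) ?_, ?_, ?_, ?_⟩
  · rwa [coeff_edgePoly, if_pos le_rfl, Nat.sub_self, mul_zero, mul_comm]
  · rwa [coeff_edgePoly, if_pos (Nat.zero_le _), Nat.sub_zero, mul_zero, mul_comm]
  · refine locallyNilpotent_top hf _ _ fun d hd => ?_
    have := weight_le hf hd
    rwa [hX, hY] at this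
  · refine pderiv_ne_zero_of_mem (d := expo (g * p) 0) ?_ (by simp [hg.ne', hp.ne'])
    rw [coeff_top, if_pos (by simp [wt])]
    exact hc

variable {K : Type*} [Field K] [CharZero K] (ι : k →+* K)

/-- A root of the edge polynomial gives an element of the kernel. -/
theorem jac_binomial_eq_zero {e : K} (he : ((edgePoly f g p q).map ι).eval e = 0) :
    jac (MvPolynomial.map ι (top ![g * q, g * p] f (g * p * (g * q))))
      (X 0 ^ p - C e * X 1 ^ q) = 0 := by
  obtain ⟨hdeg, -, hln, hne⟩ := edgePoly_spec hf hg hp hq hX hY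
  refine eq_zero_of_dvd (locallyNilpotent_map ι hln) (fun h => hne ?_) ?_ (jac_self _)
  · rw [← map_zero (MvPolynomial.map ι)] at h
    rw [MvPolynomial.map_injective ι ι.injective h, map_zero]
  · rw [top_eq_sum hp hq hg hpq, map_sum]
    simp only [map_mul, map_pow, map_C, map_X]
    refine sub_dvd_edge (fun s => C (ι ((edgePoly f g p q).coeff s))) g _ _ _ ?_
    simp only [← map_pow, ← map_mul, ← map_sum]
    rw [← map_zero C, ← he, Polynomial.eval_eq_sum_range'
      (Nat.lt_succ_of_le (Polynomial.natDegree_map_le.trans hdeg.le))]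
    simp [Polynomial.coeff_map]

/-- One of the degrees on the axes divides the other. -/
theorem eq_one_or_eq_one : p = 1 ∨ q = 1 := by
  obtain ⟨hdeg, h0, hln, hne⟩ := edgePoly_spec hf hg hp hq hX hY
  let ι := algebraMap k (AlgebraicClosure k)
  obtain ⟨e, he⟩ := IsAlgClosed.exists_root ((edgePoly f g p q).map ι) (by
    rw [Polynomial.degree_map]
    exact fun h => hg.ne' (hdeg ▸ Polynomial.natDegree_eq_of_degree_eq_some h))
  set D := jac (MvPolynomial.map ι (top ![g * q, g * p] f (g * p * (g * q)))) with hD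
  have hDln : LocallyNilpotent D := locallyNilpotent_map ι hln
  have he0 : e ≠ 0 := by
    rintro rfl
    rw [Polynomial.IsRoot, ← Polynomial.coeff_zero_eq_eval_zero, Polynomial.coeff_map] at he
    exact h0 (ι.injective (by rw [he, map_zero]))
  have hker := jac_binomial_eq_zero hf hg hp hq hpq hX hY ι he
  rw [← hD] at hker
  by_contra hno
  have hp2 : 2 ≤ p := by omega
  have hq2 : 2 ≤ q := by omega
  have h1 : D (X 1) ≠ 0 := by
    rw [hD, jac_X_one, pderiv_map]
    exact fun h => hne (MvPolynomial.map_injective ι ι.injective (by rw [h, map_zero]))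
  obtain ⟨p', rfl⟩ : ∃ p', p = p' + 2 := ⟨p - 2, by omega⟩
  obtain ⟨q', rfl⟩ : ∃ q', q = q' + 2 := ⟨q - 2, by omega⟩
  have hrel : ((p' + 2 : ℕ) : MvPolynomial (Fin 2) (AlgebraicClosure k)) * X 0 ^ (p' + 1) *
        D (X 0) = C e * ((q' + 2 : ℕ) : MvPolynomial (Fin 2) (AlgebraicClosure k)) *
        X 1 ^ (q' + 1) * D (X 1) := by
    rw [map_sub, Derivation.leibniz, ← algebraMap_eq, Derivation.map_algebraMap,
      Derivation.leibniz_pow, Derivation.leibniz_pow, sub_eq_zero] at hker
    simpa [smul_eq_mul, mul_assoc] using hker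
  have hpr : ∀ i, Prime (X i : MvPolynomial (Fin 2) (AlgebraicClosure k)) := fun i => X_prime
  have hC : ∀ (i : Fin 2) (a : AlgebraicClosure k), a ≠ 0 →
      ¬(X i : MvPolynomial (Fin 2) (AlgebraicClosure k)) ∣ C a := fun i a ha h =>
    (hpr i).not_isUnit (isUnit_of_dvd_unit h ((Ne.isUnit ha).map C))
  have hN : ∀ (i : Fin 2) (m : ℕ), m ≠ 0 →
      ¬(X i : MvPolynomial (Fin 2) (AlgebraicClosure k)) ∣
        (m : MvPolynomial (Fin 2) (AlgebraicClosure k)) := fun i m hm => by
    rw [← map_natCast C]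
    exact hC i _ (Nat.cast_ne_zero.2 hm)
  have hX01 : ∀ {i j : Fin 2} (m : ℕ), i ≠ j →
      ¬(X i : MvPolynomial (Fin 2) (AlgebraicClosure k)) ∣ X j ^ m := fun m hij h =>
    hij (X_dvd_X.1 ((hpr _).dvd_of_dvd_pow h))
  have hx : (X 0 : MvPolynomial (Fin 2) (AlgebraicClosure k)) ∣ D (X 1) := by
    have : (X 0 : MvPolynomial (Fin 2) (AlgebraicClosure k)) ∣
        C e * ((q' + 2 : ℕ) : MvPolynomial (Fin 2) (AlgebraicClosure k)) *
          X 1 ^ (q' + 1) * D (X 1) :=
      hrel ▸ ⟨((p' + 2 : ℕ) : MvPolynomial (Fin 2) (AlgebraicClosure k)) * X 0 ^ p' * D (X 0),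
        by ring⟩
    rcases (hpr 0).dvd_or_dvd this with h | h
    · rcases (hpr 0).dvd_or_dvd h with h | h
      · rcases (hpr 0).dvd_or_dvd h with h | h
        · exact absurd h (hC 0 e he0)
        · exact absurd h (hN 0 _ (by omega))
      · exact absurd h (hX01 _ (by decide))
    · exact h
  have hy : (X 1 : MvPolynomial (Fin 2) (AlgebraicClosure k)) ∣ D (X 0) := by
    have : (X 1 : MvPolynomial (Fin 2) (AlgebraicClosure k)) ∣
        ((p' + 2 : ℕ) : MvPolynomial (Fin 2) (AlgebraicClosure k)) * X 0 ^ (p' + 1) * D (X 0) :=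
      hrel ▸ ⟨C e * ((q' + 2 : ℕ) : MvPolynomial (Fin 2) (AlgebraicClosure k)) * X 1 ^ q' *
        D (X 1), by ring⟩
    rcases (hpr 1).dvd_or_dvd this with h | h
    · rcases (hpr 1).dvd_or_dvd h with h | h
      · exact absurd h (hN 1 _ (by omega))
      · exact absurd h (hX01 _ (by decide))
    · exact h
  refine not_dvd_derivative hDln (fun h0' => ?_) h1 hx hy
  rw [h0', mul_zero, eq_comm, mul_eq_zero, mul_eq_zero, mul_eq_zero] at hrel
  rcases hrel with ((h | h) | h) | h
  · exact he0 (by simpa using h)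
  · exact (q' + 1).succ_ne_zero (by exact_mod_cast h)
  · exact pow_ne_zero _ (X_ne_zero 1) h
  · exact h1 h

end Edge

/-- For `p = 1` the edge polynomial has a single root, rational over the base. -/
theorem exists_edge_root {g q : ℕ} (hf : LocallyNilpotent (jac f)) (hg : 0 < g) (hq : 0 < q)
    (hX : (pureX f).natDegree = g) (hY : (pureY f).natDegree = g * q) :
    ∃ e : k, (edgePoly f g 1 q).eval e = 0 := by
  have hX' : (pureX f).natDegree = g * 1 := by rw [mul_one, hX]
  have hpq : Nat.Coprime 1 q := Nat.coprime_one_left q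
  obtain ⟨hdeg, -, hln, hne⟩ := edgePoly_spec hf hg one_pos hq hX' hY
  let ι := algebraMap k (AlgebraicClosure k)
  set P := edgePoly f g 1 q with hP
  obtain ⟨e, he⟩ := IsAlgClosed.exists_root (P.map ι) (by
    rw [Polynomial.degree_map]
    exact fun h => hg.ne' (hdeg ▸ Polynomial.natDegree_eq_of_degree_eq_some h))
  have huniq : ∀ e', (P.map ι).eval e' = 0 → e' = e := by
    intro e' he'
    by_contra hne'
    have h1 := jac_binomial_eq_zero hf hg one_pos hq hpq hX' hY ι he
    have h2 := jac_binomial_eq_zero hf hg one_pos hq hpq hX' hY ι he'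
    have hln' := locallyNilpotent_map ι hln
    set F := MvPolynomial.map ι (top ![g * q, g * 1] f (g * 1 * (g * q)))
    set Y : MvPolynomial (Fin 2) (AlgebraicClosure k) := X 1 ^ q
    have h3 : jac F (C (e' - e) * Y) = 0 := by
      have := congrArg₂ (· - ·) h1 h2
      simp only [sub_zero] at this
      rw [← this, ← map_sub, map_sub C]
      congr 1
      ring
    have h4 : jac F (X 1) = 0 := by
      refine eq_zero_of_dvd hln' (mul_ne_zero ?_ (pow_ne_zero _ (X_ne_zero 1)))
        (dvd_mul_of_dvd_right (dvd_pow_self _ hq.ne') _) h3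
      simpa [sub_eq_zero] using hne'
    rw [jac_X_one, pderiv_map] at h4
    exact hne (MvPolynomial.map_injective ι ι.injective (by rw [h4, map_zero]))
  have hcard : (P.map ι).roots.card = g := by
    rw [← (IsAlgClosed.splits (P.map ι)).natDegree_eq_card_roots, Polynomial.natDegree_map, hdeg]
  have hprod := (IsAlgClosed.splits (P.map ι)).eq_prod_roots
  rw [Multiset.eq_replicate.2 ⟨hcard, fun x hx => huniq x (Polynomial.isRoot_of_mem_roots hx)⟩,
    Multiset.map_replicate, Multiset.prod_replicate, Polynomial.leadingCoeff_map] at hprod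
  have hcoef := congrArg (fun r => Polynomial.coeff r (g - 1)) hprod
  simp only [Polynomial.coeff_map, Polynomial.coeff_C_mul] at hcoef
  rw [sub_eq_add_neg, ← map_neg Polynomial.C, Polynomial.coeff_X_add_C_pow,
    show g - (g - 1) = 1 by omega, pow_one, ← Nat.choose_symm (by omega : g - 1 ≤ g),
    show g - (g - 1) = 1 by omega, Nat.choose_one_right] at hcoef
  have hlc : P.leadingCoeff ≠ 0 :=
    Polynomial.leadingCoeff_ne_zero.2 fun h => by simp [h] at hdeg; omega
  refine ⟨-P.coeff (g - 1) / (g * P.leadingCoeff), ι.injective ?_⟩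
  have he' : ι (-P.coeff (g - 1) / (g * P.leadingCoeff)) = e := by
    rw [map_div₀, map_neg, hcoef, map_mul, map_natCast, eq_comm, eq_div_iff]
    · ring
    · exact mul_ne_zero (Nat.cast_ne_zero.2 hg.ne') (by simpa using hlc)
  rw [← Polynomial.eval_map_apply, he', map_zero]
  exact he

end Fermat.Agent.JungVanDerKulk
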