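import Fermat.Agent.JungVanDerKulk.Lnd
import Mathlib.Algebra.MvPolynomial.PDeriv
import Mathlib.Algebra.MvPolynomial.CommRing
import Mathlib.Algebra.Polynomial.AlgebraMap
import Mathlib.Algebra.Polynomial.BigOperators

/-!
# Jacobian derivations and their weighted leading forms
-/

set_option autoImplicit false

noncomputable section

open MvPolynomial

namespace Fermat.Agent.JungVanDerKulk

variable {k : Type*} [CommRing k]

/-- The derivation `h ↦ ∂f/∂x · ∂h/∂y - ∂f/∂y · ∂h/∂x`. -/
def jac (f : MvPolynomial (Fin 2) k) :
    Derivation k (MvPolynomial (Fin 2) k) (MvPolynomial (Fin 2) k) :=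
  pderiv 0 f • pderiv 1 - pderiv 1 f • pderiv 0

theorem jac_apply (f h : MvPolynomial (Fin 2) k) :
    jac f h = pderiv 0 f * pderiv 1 h - pderiv 1 f * pderiv 0 h := by
  simp [jac]

theorem jac_self (f : MvPolynomial (Fin 2) k) : jac f f = 0 := by
  rw [jac_apply]; ring

theorem jac_X_one (f : MvPolynomial (Fin 2) k) : jac f (X 1) = pderiv 0 f := by
  simp [jac_apply, pderiv_X]

theorem jac_X_zero (f : MvPolynomial (Fin 2) k) : jac f (X 0) = -pderiv 1 f := by
  simp [jac_apply, pderiv_X]

/-- It is enough to test local nilpotence on the two variables. -/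
theorem locallyNilpotent_of_X
    (D : Derivation k (MvPolynomial (Fin 2) k) (MvPolynomial (Fin 2) k))
    (h : ∀ i, ∃ n : ℕ, D^[n] (X i) = 0) : LocallyNilpotent D := by
  intro p
  induction p using MvPolynomial.induction_on with
  | C a => exact ⟨1, by simp⟩
  | add p q hp hq =>
    obtain ⟨m, hm⟩ := hp
    obtain ⟨n, hn⟩ := hq
    exact ⟨max m n, by rw [iterate_add_right, iterate_eq_zero_of_le D hm (le_max_left _ _),
      iterate_eq_zero_of_le D hn (le_max_right _ _), add_zero]⟩
  | mul_X p i hp => exact locallyNilpotent_mul D hp (h i)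

/-- Local nilpotence survives a change of the coefficients. -/
theorem locallyNilpotent_map {K : Type*} [CommRing K] (φ : k →+* K)
    {f : MvPolynomial (Fin 2) k} (hf : LocallyNilpotent (jac f)) :
    LocallyNilpotent (jac (MvPolynomial.map φ f)) := by
  refine locallyNilpotent_of_X _ fun i => ?_
  obtain ⟨n, hn⟩ := hf (X i)
  refine ⟨n, ?_⟩
  have key : ∀ (j : ℕ) (p : MvPolynomial (Fin 2) k),
      (jac (MvPolynomial.map φ f))^[j] (MvPolynomial.map φ p) =
        MvPolynomial.map φ ((jac f)^[j] p) := by
    intro j
    induction j with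
    | zero => intro p; rfl
    | succ j ih =>
      intro p
      rw [Function.iterate_succ_apply, Function.iterate_succ_apply, ← ih]
      congr 1
      simp [jac_apply, pderiv_map]
  have := key n (X i)
  rwa [hn, map_zero, map_X] at this

/-- The weight of an exponent. -/
def wt (w : Fin 2 → ℕ) (d : Fin 2 →₀ ℕ) : ℕ := d 0 * w 0 + d 1 * w 1

/-- The expansion in weighted homogeneous components, recorded in an auxiliary variable. -/
def weightSplit (w : Fin 2 → ℕ) :
    MvPolynomial (Fin 2) k →ₐ[k] Polynomial (MvPolynomial (Fin 2) k) :=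
  aeval fun i => Polynomial.C (X i) * Polynomial.X ^ w i

theorem weightSplit_monomial (w : Fin 2 → ℕ) (d : Fin 2 →₀ ℕ) (c : k) :
    weightSplit w (monomial d c) = Polynomial.C (monomial d c) * Polynomial.X ^ wt w d := by
  rw [weightSplit, aeval_monomial, monomial_eq, map_mul,
    IsScalarTower.algebraMap_apply k (MvPolynomial (Fin 2) k)
      (Polynomial (MvPolynomial (Fin 2) k)) c,
    Polynomial.algebraMap_eq, MvPolynomial.algebraMap_eq,
    Finsupp.prod_fintype _ _ (fun _ => pow_zero _),
    Finsupp.prod_fintype _ _ (fun _ => pow_zero _), Fin.prod_univ_two, Fin.prod_univ_two, wt]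
  simp only [mul_pow, map_mul, map_pow, ← pow_mul, pow_add]
  ring

theorem coeff_weightSplit (w : Fin 2 → ℕ) (p : MvPolynomial (Fin 2) k) (N : ℕ)
    (d : Fin 2 →₀ ℕ) :
    ((weightSplit w p).coeff N).coeff d = if wt w d = N then p.coeff d else 0 := by
  induction p using MvPolynomial.induction_on' with
  | monomial u a =>
    rw [weightSplit_monomial, Polynomial.coeff_C_mul_X_pow]
    split_ifs with h1 h2 h2 <;> simp only [coeff_zero, coeff_monomial]
    · rw [if_neg]; rintro rfl; exact h2 h1.symm
    · rw [if_neg]; rintro rfl; exact h1 h2.symm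
  | add p q hp hq =>
    rw [map_add, Polynomial.coeff_add, coeff_add, hp, hq, coeff_add]
    split_ifs <;> simp

theorem coeff_weightSplit_pderiv (w : Fin 2 → ℕ) (i : Fin 2) (p : MvPolynomial (Fin 2) k)
    (e N : ℕ) :
    (weightSplit w (pderiv i p) * Polynomial.X ^ (w i + e)).coeff N =
      pderiv i ((weightSplit w p * Polynomial.X ^ e).coeff N) := by
  induction p using MvPolynomial.induction_on' with
  | monomial u a =>
    rw [pderiv_monomial, weightSplit_monomial, weightSplit_monomial, mul_assoc, mul_assoc,
      ← pow_add, ← pow_add, Polynomial.coeff_C_mul_X_pow, Polynomial.coeff_C_mul_X_pow]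
    by_cases hu : u i = 0
    · split_ifs <;> simp [hu, pderiv_monomial]
    · have hle : Finsupp.single i 1 ≤ u :=
        Finsupp.single_le_iff.2 (Nat.one_le_iff_ne_zero.2 hu)
      have hw : wt w (u - Finsupp.single i 1) + (w i + e) = wt w u + e := by
        conv_rhs => rw [← tsub_add_cancel_of_le hle]
        fin_cases i <;> simp [wt] <;> ring
      rw [hw]
      split_ifs <;> simp [pderiv_monomial]
  | add p q hp hq => simp only [map_add, add_mul, Polynomial.coeff_add, hp, hq]

/-- The component of weight `M`. -/
def top (w : Fin 2 → ℕ) (f : MvPolynomial (Fin 2) k) (M : ℕ) : MvPolynomial (Fin 2) k :=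
  (weightSplit w f).coeff M

theorem coeff_top (w : Fin 2 → ℕ) (f : MvPolynomial (Fin 2) k) (M : ℕ) (d : Fin 2 →₀ ℕ) :
    (top w f M).coeff d = if wt w d = M then f.coeff d else 0 :=
  coeff_weightSplit w f M d

/-- **The leading form of a locally nilpotent Jacobian derivation is locally nilpotent.** -/
theorem locallyNilpotent_top {f : MvPolynomial (Fin 2) k} (hf : LocallyNilpotent (jac f))
    (w : Fin 2 → ℕ) (M : ℕ) (hM : ∀ d ∈ f.support, wt w d ≤ M) :
    LocallyNilpotent (jac (top w f M)) := by
  refine locallyNilpotent_of_X _ fun i => ?_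
  obtain ⟨n, hn⟩ := hf (X i)
  refine ⟨n, ?_⟩
  have hfb : ∀ l, M < l → (weightSplit w f).coeff l = 0 := by
    intro l hl
    ext d
    rw [coeff_weightSplit, coeff_zero, ite_eq_right_iff]
    intro hd
    by_contra hne
    have := hM d (mem_support_iff.2 hne)
    omega
  have key : ∀ j, (∀ l, j * M + w i < l →
      (weightSplit w ((jac f)^[j] (X i)) * Polynomial.X ^ (j * (w 0 + w 1))).coeff l = 0) ∧
      (weightSplit w ((jac f)^[j] (X i)) * Polynomial.X ^ (j * (w 0 + w 1))).coeff (j * M + w i) =
        (jac (top w f M))^[j] (X i) := by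
    intro j
    induction j with
    | zero =>
      have e : weightSplit w (X i : MvPolynomial (Fin 2) k) =
          Polynomial.C (X i) * Polynomial.X ^ w i := aeval_X _ i
      refine ⟨fun l hl => ?_, ?_⟩
      · simp only [Function.iterate_zero, id, zero_mul, pow_zero, mul_one, e,
          Polynomial.coeff_C_mul_X_pow]
        rw [if_neg (by omega)]
      · simp [e]
    | succ j ih =>
      obtain ⟨h1, h2⟩ := ih
      set q := (jac f)^[j] (X i)
      set e := j * (w 0 + w 1)
      have hF : ∀ c, (weightSplit w (pderiv c f) * Polynomial.X ^ w c).natDegree ≤ M ∧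
          (weightSplit w (pderiv c f) * Polynomial.X ^ w c).coeff M =
            pderiv c (top w f M) := by
        intro c
        have e0 : ∀ l, (weightSplit w (pderiv c f) * Polynomial.X ^ w c).coeff l =
            pderiv c ((weightSplit w f).coeff l) := fun l => by
          simpa using coeff_weightSplit_pderiv w c f 0 l
        exact ⟨Polynomial.natDegree_le_iff_coeff_eq_zero.2 fun l hl => by
          rw [e0, hfb l hl, map_zero], e0 M⟩
      have hG : ∀ c, (weightSplit w (pderiv c q) * Polynomial.X ^ (w c + e)).natDegree ≤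
            j * M + w i ∧
          (weightSplit w (pderiv c q) * Polynomial.X ^ (w c + e)).coeff (j * M + w i) =
            pderiv c ((jac (top w f M))^[j] (X i)) := by
        intro c
        refine ⟨Polynomial.natDegree_le_iff_coeff_eq_zero.2 fun l hl => ?_, ?_⟩
        · rw [coeff_weightSplit_pderiv, h1 l hl, map_zero]
        · rw [coeff_weightSplit_pderiv, h2]
      have e1 : weightSplit w ((jac f)^[j + 1] (X i)) *
          Polynomial.X ^ ((j + 1) * (w 0 + w 1)) =
          (weightSplit w (pderiv 0 f) * Polynomial.X ^ w 0) *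
              (weightSplit w (pderiv 1 q) * Polynomial.X ^ (w 1 + e)) -
            (weightSplit w (pderiv 1 f) * Polynomial.X ^ w 1) *
              (weightSplit w (pderiv 0 q) * Polynomial.X ^ (w 0 + e)) := by
        rw [Function.iterate_succ_apply', jac_apply, map_sub, map_mul, map_mul,
          show (j + 1) * (w 0 + w 1) = w 0 + w 1 + e by simp only [e]; ring]
        simp only [pow_add]
        ring
      rw [e1, show (j + 1) * M + w i = M + (j * M + w i) by ring]
      refine ⟨fun l hl => Polynomial.coeff_eq_zero_of_natDegree_lt (lt_of_le_of_lt ?_ hl), ?_⟩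
      · exact (Polynomial.natDegree_sub_le _ _).trans (max_le
          (Polynomial.natDegree_mul_le.trans (Nat.add_le_add (hF 0).1 (hG 1).1))
          (Polynomial.natDegree_mul_le.trans (Nat.add_le_add (hF 1).1 (hG 0).1)))
      · rw [Polynomial.coeff_sub,
          Polynomial.coeff_mul_add_eq_of_natDegree_le (hF 0).1 (hG 1).1,
          Polynomial.coeff_mul_add_eq_of_natDegree_le (hF 1).1 (hG 0).1, (hF 0).2, (hG 1).2,
          (hF 1).2, (hG 0).2, Function.iterate_succ_apply', jac_apply]
  have := (key n).2
  rw [hn, map_zero, zero_mul, Polynomial.coeff_zero] at this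
  exact this.symm

end Fermat.Agent.JungVanDerKulk
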